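/-
S55 / REC2-TOW (helper417's interface), leaves ALG-INF and GD8 — helper953.

* `infInj : InfInjSpec`           (memo T7: inflation is injective on `p`-primary classes)
* `infResLift : InfResLiftSpec`   (inflation–restriction + descent: classes dying on `ker π` are
                                   inflated)
* `gd8_of : Gd8AssemblySpec p`    (GD8 is formal)

All three are consequences of the comparison isomorphism `GAD.H953.compIso`
(`H²(Γ, C) ≅ H²(Γ' ⧸ ker π, C'^{ker π})`, `map π ι 2 = compIso ≫ infMap`) and helper244's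
inflation–restriction up to torsion (`T.H244`).
-/
import Fermat.Agent.S55.GAD.H953.InfInj
import Fermat.Agent.S55.G.Rec.Tow.Spec

set_option autoImplicit false
set_option linter.unusedSectionVars false
set_option linter.style.haveILetI false

open CategoryTheory groupCohomology

namespace Fermat.Agent.S55.G.Rec.TOW.H953

open Fermat.Agent.S55 Fermat.Agent.S55.T Fermat.Agent.S55.Tow

noncomputable section

/-- **ALG-INF**, injectivity. -/
theorem infInj : InfInjSpec := by
  intro p hp Γ' Γ _ _ _ π hπ C C' ι hι h1 z hz hinf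
  haveI : Fact p.Prime := ⟨hp⟩
  obtain ⟨k, hk⟩ := hz
  obtain ⟨P⟩ : Nonempty (Sylow p π.ker) := inferInstance
  have hPp : IsPGroup p ((P : Subgroup π.ker).map π.ker.subtype) := P.isPGroup'.map _
  have hPle : (P : Subgroup π.ker).map π.ker.subtype ≤ π.ker := by
    rintro _ ⟨x, _, rfl⟩
    exact x.2
  have hP : ∀ z : groupCohomology (resSub (resSub C' π.ker) (P : Subgroup π.ker)) 1, z = 0 :=
    H954.eq_zero_of_iso_of_isZero (H954.resResIso C' π.ker (P : Subgroup π.ker) 1)
      (h1 _ hPle hPp)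
  have hcop : (p ^ k).Coprime (P : Subgroup π.ker).index :=
    Nat.Coprime.pow_left k ((Nat.Prime.coprime_iff_not_dvd hp).2 P.not_dvd_index)
  exact GAD.H953.map_eq_zero_imp π C' C ι hπ hι.1 hι.2 (P : Subgroup π.ker) hP hcop z hk hinf

/-- **ALG-LIFT**. -/
theorem infResLift : InfResLiftSpec := by
  intro Γ' Γ _ _ _ π hπ C C' ι hι h1 Y hY
  have h1' : ∀ x : groupCohomology (resSub C' π.ker) 1, 1 • x = 0 := fun x => by
    rw [one_smul]
    exact (ModuleCat.isZero_iff_subsingleton.1 h1).elim _ _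
  obtain ⟨y, hy⟩ := H244.exists_infMap_eq_nsmul_of_resMap_eq_zero C' π.ker h1' Y hY
  rw [one_smul] at hy
  have hfac := GAD.H953.map_eq_compIso_infMap π C' C ι hπ hι.1 hι.2 2
  refine ⟨(GAD.H953.compIso π C' C ι hπ hι.1 hι.2 2).inv.hom y, ?_⟩
  rw [hfac]
  show (infMap C' π.ker 2).hom ((GAD.H953.compIso π C' C ι hπ hι.1 hι.2 2).hom.hom
    ((GAD.H953.compIso π C' C ι hπ hι.1 hι.2 2).inv.hom y)) = Y
  have hid : (GAD.H953.compIso π C' C ι hπ hι.1 hι.2 2).hom.hom
      ((GAD.H953.compIso π C' C ι hπ hι.1 hι.2 2).inv.hom y) = y := by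
    simp
  rw [hid, hy]

/-- **GD8** assembly: GD8 is formal. -/
theorem gd8_of (p : ℕ) : Gd8AssemblySpec p := by
  intro hUp hInf S hp hp2 hpS L M h hM ι hι z hz hinf
  have hsurj : Function.Surjective (Level.proj h) := by
    intro g
    induction g using QuotientGroup.induction_on with
    | H σ => exact ⟨QuotientGroup.mk σ, rfl⟩
  exact hInf p hp M.Gal L.Gal (Level.proj h) hsurj (lvlC L) (lvlC M) ι hι
    (fun Q _ hQ => (hUp S hp hp2 hpS M hM Q hQ).1) z hz hinf

/-- GD8, from `UpSpec` alone. -/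
theorem gd8 (p : ℕ) (hUp : UpSpec p) : Gd8Spec p := gd8_of p hUp infInj

end

end Fermat.Agent.S55.G.Rec.TOW.H953
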