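/-
S55 / REC2-TOW (helper417's interface), assemblies T4' and GD3 — helper953.

* `totExact_of p : TotExactAssemblySpec p`   (exactness at a totally ramified place)
* `gd3_of p : Gd3AssemblySpec p`             (local–global injectivity from reciprocity)
-/
import Fermat.Agent.S55.G.Rec.Tow.Spec

set_option autoImplicit false
set_option linter.unusedSectionVars false
set_option linter.style.haveILetI false

open CategoryTheory groupCohomology

namespace Fermat.Agent.S55.G.Rec.TOW.H953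

open Fermat.Agent.S55 Fermat.Agent.S55.T Fermat.Agent.S55.Tow

noncomputable section

/-- **GD3** assembly (memo T5). -/
theorem gd3_of (p : ℕ) : Gd3AssemblySpec p := by
  intro I hK hN S L q hq y hy hat hj
  have hS : S.Nonempty := ⟨q, hq⟩
  have hprim : E1.IsPPrimary p (res2 (lvlJ L) ⊤ y) := by
    obtain ⟨k, hk⟩ := hy
    exact ⟨k, by rw [← map_nsmul, hk, map_zero]⟩
  have hzero : h2Sub (lvlj L) ⊤ (res2 (lvlJ L) ⊤ y) = 0 := by
    rw [hN L.Gal (lvlJ L) (lvlC L) (lvlj L) ⊤ y, hj, map_zero]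
  exact I.injAt L q y hy hat (hK S hS L ⊤ _ hprim hzero)

/-- **T4'** assembly. -/
theorem totExact_of (p : ℕ) : TotExactAssemblySpec p := by
  intro I hK hUp hEx hCT S hp hp2 hpS M hM r hr Z hZ hfix
  have hS : S.Nonempty := ⟨r, hr⟩
  haveI : Fact p.Prime := ⟨hp⟩
  obtain ⟨k, hk⟩ := hZ.exists_card_eq
  have hpos : 0 < Nat.card Z := Nat.card_pos
  obtain ⟨_, hfin, hdvd⟩ := hUp S hp hp2 hpS M hM Z hZ
  have hker : ∀ x : groupCohomology (T.resSub (lvlJ M) Z) 2,
      (h2Sub (lvlj M) Z).toAddMonoidHom x = 0 → I.σ M Z x = 0 := by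
    intro x hx
    have hx' : E1.IsPPrimary p x :=
      ⟨k, by rw [← hk]; exact hCT ℤ Z (T.resSub (lvlJ M) Z) 2 (by norm_num) x⟩
    exact hK S hS M Z x hx' hx
  obtain ⟨y₀, _, hy₀⟩ := I.locClass M r hr Z Z le_rfl hZ hfix
  exact hEx (groupCohomology (T.resSub (lvlJ M) Z) 2) (groupCohomology (T.resSub (lvlC M) Z) 2)
    (AddCircle (1 : ℚ)) (h2Sub (lvlj M) Z).toAddMonoidHom (I.σ M Z) (Nat.card Z) hpos hker
    hfin hdvd ⟨y₀, hy₀⟩

end

end Fermat.Agent.S55.G.Rec.TOW.H953
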